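import Mathlib

/-!
# P-SS2, row SS2-J4 (KUM-NEW), helper26: products over a coset space (Mathlib only)

Let `G` act on `Z`, `H ≤ G` of finite index and `Φ : Z → R`.  For a left coset `c` put
`cpTw H Φ c z = Φ (s(c)⁻¹ • z)`, `s(c) = Quotient.out c`.

* if `Φ` is `H`-invariant, the translates do not depend on the representative and are permuted
  by `G`: `cpTw H Φ c (g • z) = cpTw H Φ (g⁻¹ • c) z`;
* if `Φ` transforms under `H` by a character `χ'`, the product of the translates transforms
  under `G` by the transfer of `χ'`.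
-/

set_option autoImplicit false
set_option linter.style.haveILetI false
set_option linter.unusedSectionVars false

noncomputable section

namespace Fermat.Agent.H26.KumNew

open scoped Pointwise

section Coset

variable {G : Type*} [Group G] (H : Subgroup G) {Z : Type*} [MulAction G Z] {R : Type*}

/-- The translate of `Φ` by the inverse of the chosen representative of a left coset. -/
def cpTw (Φ : Z → R) (c : G ⧸ H) : Z → R := fun z => Φ ((Quotient.out c)⁻¹ • z)

variable {H}

theorem cpTw_mk {Φ : Z → R} (hinv : ∀ h ∈ H, ∀ z, Φ (h • z) = Φ z) (g : G) (z : Z) :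
    cpTw H Φ (g : G ⧸ H) z = Φ (g⁻¹ • z) := by
  obtain ⟨β, hβ⟩ := QuotientGroup.mk_out_eq_mul H g
  unfold cpTw
  rw [hβ, mul_inv_rev, mul_smul]
  exact hinv _ (H.inv_mem β.2) _

theorem cpTw_smul {Φ : Z → R} (hinv : ∀ h ∈ H, ∀ z, Φ (h • z) = Φ z) (g : G)
    (c : G ⧸ H) (z : Z) :
    cpTw H Φ c (g • z) = cpTw H Φ (g⁻¹ • c) z := by
  induction c using QuotientGroup.induction_on with
  | H a =>
    rw [MulAction.Quotient.smul_mk, cpTw_mk hinv, cpTw_mk hinv, smul_eq_mul, mul_inv_rev,
      inv_inv, mul_smul]

theorem cpTw_one {Φ : Z → R} (hinv : ∀ h ∈ H, ∀ z, Φ (h • z) = Φ z) (z : Z) :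
    cpTw H Φ ((1 : G) : G ⧸ H) z = Φ z := by
  rw [cpTw_mk hinv, inv_one, one_smul]

/-- Every translate is a value of `Φ` at a translated point. -/
theorem cpTw_eq_apply (Φ : Z → R) (c : G ⧸ H) (z : Z) :
    cpTw H Φ c z = Φ ((Quotient.out c)⁻¹ • z) := rfl

end Coset

section Transfer

variable {G : Type*} [Group G] {H : Subgroup G} [H.FiniteIndex] {Z : Type*} [MulAction G Z]

/-- The left transversal of the chosen representatives. -/
def outTransversal (H : Subgroup G) : H.LeftTransversal :=
  ⟨Set.range (Quotient.out : G ⧸ H → G),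
    Subgroup.isComplement_range_left (fun q => Quotient.out_eq' q)⟩

theorem outTransversal_apply (q : G ⧸ H) :
    (((outTransversal H).2.leftQuotientEquiv q : (outTransversal H).1) : G) = Quotient.out q :=
  Subgroup.IsComplement.leftQuotientEquiv_apply (fun q => Quotient.out_eq' q) q

/-- If `Φ` transforms under `H` by the character `ν ∘ χ'`, then the product of its translates
over the coset space transforms under `G` by `ν` of the transfer of `χ'`. -/
theorem prod_cpTw_smul_of_char {A : Type*} [CommGroup A] (ν : A →* ℂ) (χ' : H →* A) {Φ : Z → ℂ}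
    (hΦ : ∀ (h : H) (z : Z), Φ ((h : G) • z) = ν (χ' h) * Φ z) (g : G) (z : Z) :
    (letI := H.fintypeQuotientOfFiniteIndex
     ∏ c : G ⧸ H, cpTw H Φ c (g • z))
      = ν (MonoidHom.transfer χ' g) *
        (letI := H.fintypeQuotientOfFiniteIndex
         ∏ c : G ⧸ H, cpTw H Φ c z) := by
  classical
  letI := H.fintypeQuotientOfFiniteIndex
  rw [MonoidHom.transfer_def χ' (outTransversal H) g]
  unfold Subgroup.leftTransversals.diff
  simp only
  rw [map_prod]
  -- termwise
  have key : ∀ c : G ⧸ H, cpTw H Φ c (g • z)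
      = ν (χ' ⟨(((outTransversal H).2.leftQuotientEquiv c : (outTransversal H).1) : G)⁻¹ *
            (((g • outTransversal H).2.leftQuotientEquiv c : (g • outTransversal H).1) : G),
          QuotientGroup.leftRel_apply.mp <| Quotient.exact'
            ((((outTransversal H).2.leftQuotientEquiv).symm_apply_apply c).trans
              (((g • outTransversal H).2.leftQuotientEquiv).symm_apply_apply c).symm)⟩)
        * cpTw H Φ (g⁻¹ • c) z := by
    intro c
    have h1 : (((g • outTransversal H).2.leftQuotientEquiv c : (g • outTransversal H).1) : G)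
        = g * Quotient.out (g⁻¹ • c) := by
      rw [Subgroup.smul_apply_eq_smul_apply_inv_smul, outTransversal_apply, smul_eq_mul]
    have h2 : (Quotient.out c)⁻¹ • (g • z)
        = ((Quotient.out c)⁻¹ * (g * Quotient.out (g⁻¹ • c))) • ((Quotient.out (g⁻¹ • c))⁻¹ • z) := by
      rw [← mul_smul, ← mul_smul]
      congr 1
      group
    rw [cpTw_eq_apply, h2]
    have hmem : (Quotient.out c)⁻¹ * (g * Quotient.out (g⁻¹ • c)) ∈ H := by
      have := QuotientGroup.leftRel_apply.mp (Quotient.exact'
        ((((outTransversal H).2.leftQuotientEquiv).symm_apply_apply c).trans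
          (((g • outTransversal H).2.leftQuotientEquiv).symm_apply_apply c).symm))
      rwa [outTransversal_apply, h1] at this
    have h3 := hΦ ⟨_, hmem⟩ ((Quotient.out (g⁻¹ • c))⁻¹ • z)
    rw [h3, cpTw_eq_apply]
    congr 3
    apply Subtype.ext
    change (Quotient.out c)⁻¹ * (g * Quotient.out (g⁻¹ • c))
      = (((outTransversal H).2.leftQuotientEquiv c : (outTransversal H).1) : G)⁻¹ *
          (((g • outTransversal H).2.leftQuotientEquiv c : (g • outTransversal H).1) : G)
    rw [outTransversal_apply, h1]
  rw [Finset.prod_congr rfl (fun c _ => key c), Finset.prod_mul_distrib]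
  congr 1
  exact Equiv.prod_comp (MulAction.toPerm g⁻¹ : Equiv.Perm (G ⧸ H)) (fun c => cpTw H Φ c z)

end Transfer

end Fermat.Agent.H26.KumNew

end
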