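import Fermat.Agent.H26.KumNew.DegDefs
import Fermat.Agent.H52.SS.JInterfaces
import Fermat.Agent.H29.ESB.HeckeFinal

/-!
# P-SS2, row SS2-J4 (KUM-NEW), coordinator helper26: the exact statements of the sub-rows

Goal of the row: `∀ M [NeZero M], Fermat.Agent.H52.SS.KummerNewStatement M`.

* **J4a** `DegIndexStatement` (see `DegDefs`);
* **J4b** `DegIndexStatement → PushCharStatement` (the analytic heart; helper26);
* **J4c** `DescentPushStatement` : the descent `J₀(M)(ℚ̄) → Pic⁰(FC M)` commutes with the
  degeneracy push-forwards;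
* **J4d** `PushCharStatement → DescentPushStatement → ∀ M, KummerNewStatement M` (assembly).
-/

set_option autoImplicit false

noncomputable section

namespace Fermat.Agent.H26.KumNew

open AlgebraicCurve ModularCurve CongruenceSubgroup
open Fermat.Agent.H63.LR Fermat.Agent.H52.SS

/-- **(J4c) DESCENT-PUSH.**  The descent homomorphism `J₀(M)(ℚ̄) → Pic⁰(FC M)` commutes with the
push-forwards along the two degeneracy maps. -/
def DescentPushStatement : Prop :=
  ∀ (N q : ℕ) [NeZero N] [NeZero q] (hq : q.Prime) (ι : AlgebraicClosure ℚ →+* ℂ)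
    (x : JZero (N * q)),
    Fermat.Agent.H29.descentHom N ι (jPushA N q hq x)
      = cPushA N q hq (Fermat.Agent.H29.descentHom (N * q) ι x) ∧
    Fermat.Agent.H29.descentHom N ι (jPushB N q hq x)
      = cPushB N q hq (Fermat.Agent.H29.descentHom (N * q) ι x)

end Fermat.Agent.H26.KumNew

end
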