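import Fermat.Agent.H63.LR.Maps
import Fermat.Prelude.Def_AlgebraicCurve_Correspondence
import Fermat.Prelude.Def_ModularCurve_HeckeOperatorTotal

/-!
# P-SS2, row SS2-J4 (KUM-NEW), coordinator helper26: degree = index (statements)

* **J4a1** `DegAlphaIndexStatement` : `[FC (N q) : α FC N] = [Γ₀(N) : Γ₀(N q)]` (tower law, from
  DEG-C at the two levels and multiplicativity of the index);
* **J4a2** `DegBetaEqAlphaStatement` : `[FC (N q) : β FC N] = [FC (N q) : α FC N]`
  (Atkin–Lehner at level `1 · q` and the tower law);
* **J4a3** `IndexConjDStatement` : the ranges of the two degeneracy homomorphisms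
  `incl N q`, `conjD N q : Γ₀(N q) → Γ₀(N)` have the same index (pure group theory);
* **J4a** `DegIndexStatement` : the conjunction used by the analytic heart.
-/

set_option autoImplicit false

noncomputable section

namespace Fermat.Agent.H26.KumNew

open AlgebraicCurve ModularCurve CongruenceSubgroup
open Fermat.Agent.H63.LR

/-- **(J4a1) DEG-ALPHA-IDX.**  The degree of the first degeneracy map over `ℂ` is the index of
`Γ₀(N q)` in `Γ₀(N)` (every prime `q`, dividing `N` or not). -/
def DegAlphaIndexStatement : Prop :=
  ∀ (N q : ℕ) [NeZero N] [NeZero q], q.Prime →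
    finrankAlong ℂ (heckeAlphaBar ℂ N q) = (incl N q).range.index

/-- **(J4a2) DEG-BETA.**  The two degeneracy maps over `ℂ` have the same degree (every prime
`q`, dividing `N` or not). -/
def DegBetaEqAlphaStatement : Prop :=
  ∀ (N q : ℕ) [NeZero N] [NeZero q], q.Prime →
    finrankAlong ℂ (heckeBetaBar ℂ N q) = finrankAlong ℂ (heckeAlphaBar ℂ N q)

/-- **(J4a3) IDX-CONJD.**  The ranges of the two degeneracy homomorphisms have the same index
in `Γ₀(N)`. -/
def IndexConjDStatement : Prop :=
  ∀ (N q : ℕ) [NeZero N] [NeZero q], q.Prime →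
    (conjD N q).range.index = (incl N q).range.index

/-- **(J4a) DEG-IDX.**  Degree = index for both degeneracy maps. -/
def DegIndexStatement : Prop :=
  ∀ (N q : ℕ) [NeZero N] [NeZero q], q.Prime →
    finrankAlong ℂ (heckeAlphaBar ℂ N q) = (incl N q).range.index ∧
    finrankAlong ℂ (heckeBetaBar ℂ N q) = (conjD N q).range.index

theorem degIndex_of_parts (h1 : DegAlphaIndexStatement) (h2 : DegBetaEqAlphaStatement)
    (h3 : IndexConjDStatement) : DegIndexStatement := by
  intro N q _ _ hq
  refine ⟨h1 N q hq, ?_⟩
  rw [h2 N q hq, h1 N q hq, h3 N q hq]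

end Fermat.Agent.H26.KumNew

end
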