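import Fermat.Agent.H26.KumNew.PushChar
import Fermat.Agent.H77.SS2J.DegIdxMain
import Fermat.Agent.H35.KumNew.IdxConjDFinal
import Fermat.Agent.H33.SS2.KummerNewJ

/-!
# P-SS2 / P-SS, row SS2-J4 (KUM-NEW), helper26 (coordinator): UNCONDITIONAL

* `degIndex : DegIndexStatement` (helper77: degrees; helper35: index of the range of `conjD`);
* `pushChar : Fermat.Agent.H52.SS.PushCharStatement` (helper26: the analytic heart);
* `kummerNew M : Fermat.Agent.H52.SS.KummerNewStatement M` (helper33: descent + assembly).
-/

set_option autoImplicit false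

noncomputable section

namespace Fermat.Agent.H26.KumNew

/-- **(J4a)** degree = index for both degeneracy maps, all primes `q`. -/
theorem degIndex : DegIndexStatement :=
  degIndex_of_parts Fermat.Agent.H77.degAlphaIndexStatement
    Fermat.Agent.H77.degBetaEqAlphaStatement Fermat.Agent.H35.KumNew.indexConjD

/-- **(J4-C) PUSH-CHAR**, unconditional. -/
theorem pushChar : Fermat.Agent.H52.SS.PushCharStatement :=
  pushChar_of_degIndex degIndex

/-- **(J4) KUM-NEW**, unconditional: Kummer embeddings map new classes to new classes. -/
theorem kummerNew (M : ℕ) [NeZero M] : Fermat.Agent.H52.SS.KummerNewStatement M :=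
  Fermat.Agent.H33.SS2.kummerNew_of_pushChar pushChar M

end Fermat.Agent.H26.KumNew

end
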