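import Fermat.Agent.H58.EsC.NormRep
import Fermat.Agent.H26.KumNew.CosetProd

/-!
# P-SS2, row SS2-J4 (KUM-NEW), helper26: the norm along a degeneracy map is represented by the
product of the translates over the coset space (generic form)

Data (`DegData`): a `ℂ`-algebra map `φ : FC N → FC (N q)`, a group homomorphism
`j : Γ₀(N q) → Γ₀(N)` and a matrix `d ∈ GL₂(ℝ)` of positive determinant such that
`d (j γ) = γ d`, the functions `z ↦ F (d g z)` are nice for nice `F`, and `φ g` is represented by a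
function `F'` with `F' (d z) = G z` whenever `g` is represented by `G`.

`normRepGen` : if moreover `[FC (N q) : φ (FC N)] = [Γ₀(N) : j(Γ₀(N q))]`, then for `f ∈ FC (N q)`
represented by `F`, the norm of `f` along `φ` is represented by
`z ↦ ∏_{c ∈ Γ₀(N) / j(Γ₀(N q))} F (d s(c)⁻¹ z)`.

Twin of `Fermat.Agent.H58.normRep_of_parts` (whose proof is followed step by step).
-/

set_option autoImplicit false
set_option linter.style.haveILetI false
set_option linter.unusedSectionVars false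
set_option linter.unusedVariables false

noncomputable section

open UpperHalfPlane Matrix.SpecialLinearGroup Polynomial AlgebraicCurve CongruenceSubgroup
open scoped MatrixGroups ModularForm Manifold

namespace Fermat.Agent.H26.KumNew

open Fermat.Agent.H42 Fermat.Agent.H44 Fermat.Agent.H85 Fermat.Agent.H23
open Fermat.Agent.H23.EsA Fermat.Agent.H58

/-- The data of a degeneracy map: field map, group homomorphism and matrix. -/
structure DegData (N q : ℕ) [NeZero N] [NeZero q] (φ : ↥(FC N) →ₐ[ℂ] ↥(FC (N * q)))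
    (j : ↥(Gamma0 (N * q)) →* ↥(Gamma0 N)) (d : GL (Fin 2) ℝ) : Prop where
  det_pos : 0 < (d.det : ℝ)
  conj : ∀ γ : ↥(Gamma0 (N * q)),
    d * mapGL ℝ ((j γ : ↥(Gamma0 N)) : SL(2, ℤ)) = mapGL ℝ (γ : SL(2, ℤ)) * d
  nice : ∀ F : ℍ → ℂ, MDiff F → (∀ γ : SL(2, ℤ), ExpGrowth (fun z => F (γ • z))) →
    ∀ g : SL(2, ℤ), (fun z : ℍ => F (d • (g • z))) ∈ niceSubring
  rep : ∀ (g : ↥(FC N)) (Gf : ℍ → ℂ), Rep N Gf g →
    ∃ F' : ℍ → ℂ, Rep (N * q) F' (φ g) ∧ ∀ z : ℍ, F' (d • z) = Gf z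

section main

variable {N q : ℕ} [NeZero N] [NeZero q] {φ : ↥(FC N) →ₐ[ℂ] ↥(FC (N * q))}
  {j : ↥(Gamma0 (N * q)) →* ↥(Gamma0 N)} {d : GL (Fin 2) ℝ}

/-- `z ↦ F (d z)` is invariant under the range of `j` if `F` is `Γ₀(N q)`-invariant. -/
theorem DegData.inv_range (hD : DegData N q φ j d) {F : ℍ → ℂ}
    (hF : ∀ (γ : ↥(Gamma0 (N * q))) (z : ℍ), F ((γ : SL(2, ℤ)) • z) = F z) :
    ∀ h ∈ j.range, ∀ z : ℍ, (fun w : ℍ => F (d • w)) (h • z) = (fun w : ℍ => F (d • w)) z := by
  rintro h ⟨γ, rfl⟩ z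
  show F (d • ((j γ : ↥(Gamma0 N)) • z)) = F (d • z)
  have h1 : (j γ : ↥(Gamma0 N)) • z = mapGL ℝ ((j γ : ↥(Gamma0 N)) : SL(2, ℤ)) • z := rfl
  have h2 : (γ : SL(2, ℤ)) • (d • z) = mapGL ℝ (γ : SL(2, ℤ)) • (d • z) := rfl
  rw [h1, ← mul_smul, hD.conj γ, mul_smul, ← h2, hF γ]

/-- `z ↦ G (d z)` transforms under the range of `j` by the transported character. -/
theorem DegData.char_range (hD : DegData N q φ j d) {G : ℍ → ℂ}
    {χ : ↥(Gamma0 (N * q)) →* ℂˣ} (hG : HasCharacter (N * q) G χ) (γ : ↥(Gamma0 (N * q)))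
    (z : ℍ) : G (d • ((j γ : ↥(Gamma0 N)) • z)) = (χ γ : ℂ) * G (d • z) := by
  have h1 : (j γ : ↥(Gamma0 N)) • z = mapGL ℝ ((j γ : ↥(Gamma0 N)) : SL(2, ℤ)) • z := rfl
  have h2 : (γ : SL(2, ℤ)) • (d • z) = mapGL ℝ (γ : SL(2, ℤ)) • (d • z) := rfl
  rw [h1, ← mul_smul, hD.conj γ, mul_smul, ← h2, hG γ]

/-- Transfer of polynomial evaluation along `LaurentRel`, evaluated at the points `d z`. -/
theorem DegData.aeval_eq (hD : DegData N q φ j d) (Q : Polynomial ↥(FC N)) (c : ℕ → ℍ → ℂ)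
    (hc : ∀ k, LaurentRel (c k) ((Q.coeff k : ↥(FC N)) : LaurentSeries ℂ))
    (f : ↥(FC (N * q))) (F : ℍ → ℂ) (hF : LaurentRel F (f : LaurentSeries ℂ))
    (n : ℕ) (hn : Q.natDegree < n) :
    ∃ E : ℍ → ℂ, LaurentRel E
        ((@Polynomial.aeval ↥(FC N) ↥(FC (N * q)) _ _ (algebraAlong φ) f Q : ↥(FC (N * q))) :
          LaurentSeries ℂ) ∧
      ∀ z : ℍ, E (d • z) = ∑ k ∈ Finset.range n, c k z * F (d • z) ^ k := by
  letI := algebraAlong φ
  have hex : ∀ k, ∃ F' : ℍ → ℂ, Rep (N * q) F' (φ (Q.coeff k)) ∧ ∀ z : ℍ, F' (d • z) = c k z :=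
    fun k => hD.rep (Q.coeff k) (c k) (hc k)
  choose F' hF' hF'd using hex
  refine ⟨∑ k ∈ Finset.range n, F' k * F ^ k, ?_, ?_⟩
  · rw [Polynomial.aeval_eq_sum_range' hn]
    have e : ((∑ i ∈ Finset.range n, Q.coeff i • f ^ i : ↥(FC (N * q))) : LaurentSeries ℂ)
        = ∑ i ∈ Finset.range n, ((φ (Q.coeff i) : ↥(FC (N * q))) : LaurentSeries ℂ)
            * (f : LaurentSeries ℂ) ^ i := by
      change (FC (N * q)).val (∑ i ∈ Finset.range n, Q.coeff i • f ^ i) = _
      rw [map_sum]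
      refine Finset.sum_congr rfl fun i _ => ?_
      rw [Algebra.smul_def, map_mul, map_pow]
      rfl
    rw [e]
    exact LaurentRel.sum _ fun i _ => (hF' i).mul (normRep_laurentRel_pow hF i)
  · intro z
    simp only [Finset.sum_apply, Pi.mul_apply, Pi.pow_apply]
    exact Finset.sum_congr rfl fun k _ => by rw [hF'd]

end main

section main2

variable (N q : ℕ) [NeZero N] [NeZero q] (φ : ↥(FC N) →ₐ[ℂ] ↥(FC (N * q)))
  (j : ↥(Gamma0 (N * q)) →* ↥(Gamma0 N)) (d : GL (Fin 2) ℝ)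

/-- The product of the translates of `z ↦ F (d z)` over the coset space `Γ₀(N) / j(Γ₀(N q))`. -/
def cpProd [j.range.FiniteIndex] (F : ℍ → ℂ) : ℍ → ℂ := fun z =>
  letI := j.range.fintypeQuotientOfFiniteIndex
  ∏ c : ↥(Gamma0 N) ⧸ j.range, cpTw j.range (fun w : ℍ => F (d • w)) c z

variable {N q φ j d}

/-- **The norm is represented by the product of the translates** (generic form). -/
theorem normRepGen (hD : DegData N q φ j d) [j.range.FiniteIndex]
    (hdeg : finrankAlong ℂ φ = j.range.index)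
    (hCore : CoreCStatement N) (hRep : RsubRepStatement N) (hHol : HolModularStatement N)
    (hGrow : Fermat.Agent.H94.EsA.InvariantGrowthStatement (N * q))
    (f : ↥(FC (N * q))) (F : ℍ → ℂ) (hFd : MDiff F) (hFf : Rep (N * q) F f) :
    Rep N (cpProd N q j d F) (letI := algebraAlong φ; Algebra.norm ↥(FC N) f) := by
  classical
  letI instF : Fintype (↥(Gamma0 N) ⧸ j.range) := j.range.fintypeQuotientOfFiniteIndex
  set n : ℕ := Fintype.card (↥(Gamma0 N) ⧸ j.range) with hn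
  have hnidx : j.range.index = n := by
    rw [Subgroup.index_eq_card, Nat.card_eq_fintype_card]
  -- invariance and growth of `F`
  obtain ⟨hFinv, hFg'⟩ := hGrow f F hFf
  have hFg : ∀ γ : SL(2, ℤ), ExpGrowth (fun z => F (γ • z)) := fun γ => hFg' γ
  set Φ : ℍ → ℂ := fun w => F (d • w) with hΦdef
  have hΦinv : ∀ h ∈ j.range, ∀ z : ℍ, Φ (h • z) = Φ z := hD.inv_range hFinv
  -- the translates are nice
  have hnice : ∀ (γ : SL(2, ℤ)) (c : ↥(Gamma0 N) ⧸ j.range),
      (fun z : ℍ => cpTw j.range Φ c (γ • z)) ∈ niceSubring := by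
    intro γ c
    have e : (fun z : ℍ => cpTw j.range Φ c (γ • z))
        = fun z : ℍ => F (d • ((((Quotient.out c)⁻¹ : ↥(Gamma0 N)) : SL(2, ℤ)) * γ) • z) := by
      funext z
      rw [cpTw_eq_apply, mul_smul]
      rfl
    rw [e]
    exact hD.nice F hFd hFg _
  -- the polynomial at a point and its coefficient functions
  set PA : ℍ → ℂ[X] := fun z => ∏ c : ↥(Gamma0 N) ⧸ j.range, (X - C (cpTw j.range Φ c z))
    with hPA
  have hPAmonic : ∀ z, (PA z).Monic := fun z => monic_prod_X_sub_C _ _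
  have hPAdeg : ∀ z, (PA z).natDegree = n := fun z => by
    rw [hPA]
    simp only
    rw [natDegree_finsetProd_X_sub_C_eq_card, Finset.card_univ]
  have hPAsmul : ∀ g ∈ Gamma0 N, ∀ z : ℍ, PA (g • z) = PA z := by
    intro g hg z
    rw [hPA]
    simp only
    have e : ∀ c : ↥(Gamma0 N) ⧸ j.range, (X - C (cpTw j.range Φ c (g • z)) : ℂ[X])
        = (fun y => (X - C (cpTw j.range Φ y z) : ℂ[X]))
            ((MulAction.toPerm (⟨g, hg⟩ : ↥(Gamma0 N))⁻¹ :
              Equiv.Perm (↥(Gamma0 N) ⧸ j.range)) c) := by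
      intro c
      simp only [MulAction.toPerm_apply]
      rw [← cpTw_smul hΦinv]
      rfl
    rw [Finset.prod_congr rfl fun c _ => e c]
    exact Equiv.prod_comp (MulAction.toPerm (⟨g, hg⟩ : ↥(Gamma0 N))⁻¹ :
      Equiv.Perm (↥(Gamma0 N) ⧸ j.range)) (fun y => (X - C (cpTw j.range Φ y z) : ℂ[X]))
  set cf : ℕ → ℍ → ℂ := fun k z => (PA z).coeff k with hcf
  have hcfnice : ∀ (γ : SL(2, ℤ)) (k : ℕ), (fun z : ℍ => cf k (γ • z)) ∈ niceSubring := by
    intro γ k
    exact normAn_coeff_prod_mem_nice (fun c z => cpTw j.range Φ c (γ • z)) (hnice γ) k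
  have hcfmd : ∀ k, MDiff (cf k) := by
    intro k
    have h := (hcfnice 1 k).1
    have e : (fun z : ℍ => cf k ((1 : SL(2, ℤ)) • z)) = cf k := by
      funext z
      rw [one_smul]
    rwa [e] at h
  have hcfgrow : ∀ k, ModerateGrowth (cf k) := by
    intro k γ
    obtain ⟨-, M, C, Y, -, hb⟩ := hcfnice γ k
    exact ⟨M, C, Y, fun z hz => hb z hz⟩
  have hcfinv : ∀ k, ∀ g ∈ Gamma0 N, ∀ z : ℍ, cf k (g • z) = cf k z := by
    intro k g hg z
    show (PA (g • z)).coeff k = (PA z).coeff k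
    rw [hPAsmul g hg z]
  -- the coefficients in the function field
  have hex : ∀ k, ∃ c : ↥(FC N), Rep N (cf k) c := fun k =>
    hHol _ (hcfmd k) (hcfinv k) (hcfgrow k)
  choose c hc using hex
  have hctop : c n = 1 := by
    have h1 := hc n
    have e : cf n = fun _ => 1 := by
      funext z
      show (PA z).coeff n = 1
      rw [← hPAdeg z]
      exact (hPAmonic z).coeff_natDegree
    rw [e] at h1
    exact Subtype.ext (LaurentRel.unique_right h1 laurentRel_one)
  have hczero : ∀ k, n < k → c k = 0 := by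
    intro k hk
    have h1 := hc k
    have e : cf k = fun _ => 0 := by
      funext z
      show (PA z).coeff k = 0
      exact coeff_eq_zero_of_natDegree_lt (by rw [hPAdeg]; exact hk)
    rw [e] at h1
    exact Subtype.ext (LaurentRel.unique_right h1 laurentRel_zero)
  -- the polynomial
  set P : Polynomial ↥(FC N) := ∑ k ∈ Finset.range (n + 1), C (c k) * X ^ k with hPdef
  have hPcoeff : ∀ k, P.coeff k = c k := by
    intro k
    rw [hPdef, finsetSum_coeff]
    simp only [coeff_C_mul_X_pow]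
    by_cases hk : k < n + 1
    · rw [Finset.sum_eq_single k]
      · simp
      · intro b _ hbk
        rw [if_neg (Ne.symm hbk)]
      · intro hk'
        exact absurd (Finset.mem_range.mpr hk) hk'
    · rw [hczero k (by omega)]
      apply Finset.sum_eq_zero
      intro b hb
      rw [if_neg]
      intro h
      rw [h] at hk
      exact hk (Finset.mem_range.mp hb)
  have hPdeg_le : P.natDegree ≤ n :=
    natDegree_le_iff_coeff_eq_zero.mpr (fun k hk => by rw [hPcoeff, hczero k hk])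
  have hPmonic : P.Monic :=
    monic_of_natDegree_le_of_coeff_eq_one n hPdeg_le (by rw [hPcoeff, hctop])
  have hPdeg : P.natDegree = n :=
    le_antisymm hPdeg_le (le_natDegree_of_ne_zero (by rw [hPcoeff, hctop]; exact one_ne_zero))
  -- the algebraic setting
  letI alg : Algebra ↥(FC N) ↥(FC (N * q)) := algebraAlong φ
  letI mod : Module ↥(FC N) ↥(FC (N * q)) := alg.toModule
  have hfinrank : Module.finrank ↥(FC N) ↥(FC (N * q)) = n := hdeg.trans hnidx
  have hnpos : 0 < n := Fintype.card_pos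
  haveI : FiniteDimensional ↥(FC N) ↥(FC (N * q)) :=
    Module.finite_of_finrank_pos (by rw [hfinrank]; exact hnpos)
  haveI := normRep_isFractionRing N hCore
  obtain ⟨Θ, hΘ⟩ := normRep_exists_theta N hRep
  have hΘinv : ∀ (r : ↥(RsubC N)), ∀ g ∈ CongruenceSubgroup.Gamma0 N, ∀ z : ℍ,
      Θ r (g • z) = Θ r z := by
    intro r g hg z
    obtain ⟨h0, hh0, -, hinv, -⟩ := hRep (r : ↥(FC N)) r.2
    have e : Θ r = h0 := LaurentRel.unique_left (hΘ r) hh0
    rw [e]
    exact hinv g hg z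
  -- `P(f) = 0`
  have hPf : aeval f P = 0 := by
    obtain ⟨E, hE, hEd⟩ := hD.aeval_eq P cf (fun k => by rw [hPcoeff]; exact hc k) f F hFf
      (n + 1) (by omega)
    have h2 : E = 0 := by
      funext w
      have hw : d • (d⁻¹ • w) = w := smul_inv_smul d w
      rw [← hw, hEd]
      have h3 : (PA (d⁻¹ • w)).eval (Φ (d⁻¹ • w)) = 0 := by
        rw [hPA]
        simp only
        rw [eval_prod]
        refine Finset.prod_eq_zero
          (Finset.mem_univ (((1 : ↥(Gamma0 N)) : ↥(Gamma0 N) ⧸ j.range))) ?_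
        rw [eval_sub, eval_X, eval_C, cpTw_one hΦinv, sub_self]
      rw [eval_eq_sum_range' (by rw [hPAdeg]; omega : (PA (d⁻¹ • w)).natDegree < n + 1)] at h3
      exact h3
    rw [h2] at hE
    exact Subtype.ext (hE.unique_right laurentRel_zero)
  -- separation
  have hev : ∀ a : ↥(RsubC N), a ≠ 0 →
      ∃ z, ((Pi.evalRingHom (fun _ : ℍ => ℂ) z).comp Θ) a ≠ 0 := by
    intro a ha
    by_contra hcon
    push Not at hcon
    have hz : Θ a = 0 := funext fun z => hcon z
    have h1 : Rep N (0 : ℍ → ℂ) (a : ↥(FC N)) := hz ▸ hΘ a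
    have h2 : ((a : ↥(FC N)) : LaurentSeries ℂ) = 0 := LaurentRel.unique_right h1 laurentRel_zero
    exact ha (Subtype.ext (Subtype.ext h2))
  -- roots
  have hroot : ∀ Q : Polynomial ↥(RsubC N),
      aeval f (Q.map (algebraMap ↥(RsubC N) ↥(FC N))) = 0 →
      ∀ (z : ℍ) (x : ↥(Gamma0 N) ⧸ j.range),
        (Q.map ((Pi.evalRingHom (fun _ : ℍ => ℂ) z).comp Θ)).eval (cpTw j.range Φ x z) = 0 := by
    intro Q hQ z x
    obtain ⟨E, hE, hEd⟩ := hD.aeval_eq (Q.map (algebraMap ↥(RsubC N) ↥(FC N)))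
      (fun k => Θ (Q.coeff k)) (fun k => by rw [coeff_map]; exact hΘ (Q.coeff k)) f F hFf
      (Q.natDegree + 1) (Nat.lt_succ_of_le natDegree_map_le)
    rw [hQ] at hE
    have h2 : E = 0 := hE.unique_left laurentRel_zero
    have h3 := hEd ((Quotient.out x)⁻¹ • z)
    rw [h2] at h3
    simp only [Pi.zero_apply] at h3
    rw [eval_map, eval₂_eq_sum_range' _ (Nat.lt_succ_self _)]
    rw [h3]
    refine Finset.sum_congr rfl fun k _ => ?_
    have h4 : Θ (Q.coeff k) ((Quotient.out x)⁻¹ • z) = Θ (Q.coeff k) z :=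
      hΘinv (Q.coeff k) _ ((Quotient.out x)⁻¹ : ↥(Gamma0 N)).2 z
    rw [h4]
    rfl
  -- product
  have hprod : ∀ (b : ↥(RsubC N)) (Q : Polynomial ↥(RsubC N)),
      Q.map (algebraMap ↥(RsubC N) ↥(FC N)) = C (algebraMap ↥(RsubC N) ↥(FC N) b) * P →
      ∀ z : ℍ, Q.map ((Pi.evalRingHom (fun _ : ℍ => ℂ) z).comp Θ)
        = C (((Pi.evalRingHom (fun _ : ℍ => ℂ) z).comp Θ) b)
          * ∏ x : ↥(Gamma0 N) ⧸ j.range, (X - C (cpTw j.range Φ x z)) := by
    intro b Q hQ z
    ext k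
    rw [coeff_map, coeff_C_mul]
    have h1 : Θ (Q.coeff k) = Θ b * cf k := by
      refine LaurentRel.unique_left (hΘ (Q.coeff k)) ?_
      have h2 := congrArg (fun R => R.coeff k) hQ
      simp only [coeff_map, coeff_C_mul, hPcoeff] at h2
      have h3 : (((Q.coeff k : ↥(RsubC N)) : ↥(FC N)) : LaurentSeries ℂ)
          = (((b : ↥(RsubC N)) : ↥(FC N)) : LaurentSeries ℂ) * ((c k : ↥(FC N)) : LaurentSeries ℂ) := by
        have h4 := congrArg (fun y : ↥(FC N) => (y : LaurentSeries ℂ)) h2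
        exact h4
      rw [h3]
      exact (hΘ b).mul (hc k)
    have h5 := congrFun h1 z
    exact h5
  obtain ⟨e, he⟩ := normAlg_eq_pow_minpoly (A := ↥(RsubC N)) (K := ↥(FC N))
    (L := ↥(FC (N * q))) (Ω := ℂ) (Z := ℍ) (ι := ↥(Gamma0 N) ⧸ j.range)
    (fun z => (Pi.evalRingHom (fun _ : ℍ => ℂ) z).comp Θ) hev (fun z x => cpTw j.range Φ x z)
    f P hPmonic hPf hroot hprod
  have hnorm := normAlg_norm_eq_of_eq_pow_minpoly f P e he (by rw [hPdeg, hfinrank])
  -- conclusion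
  change Rep N (cpProd N q j d F) (Algebra.norm ↥(FC N) f)
  rw [hnorm, hfinrank, hPcoeff]
  have hcf0 : ∀ z, cf 0 z = (-1) ^ n * ∏ x : ↥(Gamma0 N) ⧸ j.range, cpTw j.range Φ x z := by
    intro z
    show (PA z).coeff 0 = _
    rw [coeff_zero_eq_eval_zero, hPA]
    simp only
    rw [eval_prod]
    simp only [eval_sub, eval_X, eval_C, zero_sub]
    rw [Finset.prod_neg, Finset.card_univ]
  have e1 : cpProd N q j d F = (fun _ => ((-1 : ℂ)) ^ n) * cf 0 := by
    funext z
    rw [Pi.mul_apply, hcf0, ← mul_assoc, ← pow_add]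
    have : ((-1 : ℂ)) ^ (n + n) = 1 := by
      rw [← two_mul, pow_mul]
      simp
    rw [this, one_mul]
    rfl
  have e2 : ((((-1) ^ n * c 0 : ↥(FC N)) : ↥(FC N)) : LaurentSeries ℂ)
      = HahnSeries.C ((-1 : ℂ) ^ n) * ((c 0 : ↥(FC N)) : LaurentSeries ℂ) := by
    rw [map_pow, map_neg, map_one]
    rfl
  unfold Fermat.Agent.H23.EsA.Rep
  rw [e1, e2]
  exact (laurentRel_const _).mul (hc 0)

end main2

end Fermat.Agent.H26.KumNew

end
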