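import Fermat.Agent.H26.KumNew.NormRepGen
import Fermat.Agent.H26.KumNew.Defs
import Fermat.Agent.H58.EsC.NormRepFinal

/-!
# P-SS2, row SS2-J4 (KUM-NEW), helper26: `DegIndexStatement → PushCharStatement`

The torsion–character relation intertwines the push-forward of divisor classes along the two
degeneracy maps `α`, `β` with the transfer of characters along `incl`, `conjD` (every prime `q`,
dividing `N` or not).  From a datum `(D, f, G)` for `(x, χ)` we build the datum
`(φ_* D, Norm_φ f, ∏_c G (d s(c)⁻¹ z))`, `c` running through `Γ₀(N) / j(Γ₀(N q))`, with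
`(φ, j, d) = (α, incl, 1)` resp. `(β, conjD, [[1,0],[0,q]])`.
-/

set_option autoImplicit false
set_option linter.style.haveILetI false
set_option linter.unusedSectionVars false
set_option linter.unusedVariables false

noncomputable section

open UpperHalfPlane Matrix.SpecialLinearGroup Polynomial AlgebraicCurve CongruenceSubgroup
open ModularCurve
open scoped MatrixGroups ModularForm Manifold

namespace Fermat.Agent.H26.KumNew

open Fermat.Agent.H42 Fermat.Agent.H44 Fermat.Agent.H85 Fermat.Agent.H23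
open Fermat.Agent.H23.EsA Fermat.Agent.H58 Fermat.Agent.H63.LR Fermat.Agent.H52.SS

/-! ### The two instances of `DegData` -/

section Alpha

variable (N q : ℕ) [NeZero N] [NeZero q]

theorem degData_alpha : DegData N q (heckeAlphaBar ℂ N q) (incl N q) 1 where
  det_pos := by simp
  conj := fun γ => by
    rw [one_mul, mul_one]
    rfl
  nice := fun F hFd hFg g => by
    have e : (fun z : ℍ => F ((1 : GL (Fin 2) ℝ) • (g • z))) = fun z : ℍ => F (g • z) := by
      funext z
      rw [one_smul]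
    rw [e]
    exact ⟨mdiff_comp_smul_SL hFd g, hFg g⟩
  rep := fun g Gf hG => by
    refine ⟨Gf, ?_, fun z => by rw [one_smul]⟩
    unfold Fermat.Agent.H23.EsA.Rep
    rw [coe_heckeAlphaBar]
    exact hG

end Alpha

section Beta

variable (N q : ℕ) [NeZero N] [NeZero q]

theorem scaleH_heckeMatrix_smul (z : ℍ) :
    scaleH q (ModularForm.heckeMatrix q 0 • z) = z := by
  apply UpperHalfPlane.ext
  rw [coe_scaleH, ModularForm.coe_heckeMatrix_smul (NeZero.ne q)]
  have hq : (q : ℂ) ≠ 0 := Nat.cast_ne_zero.mpr (NeZero.ne q)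
  push_cast
  field_simp
  ring

theorem heckeMatrix_mul_conjD (γ : ↥(Gamma0 (N * q))) :
    ModularForm.heckeMatrix q 0 * mapGL ℝ ((conjD N q γ : ↥(Gamma0 N)) : SL(2, ℤ))
      = mapGL ℝ (γ : SL(2, ℤ)) * ModularForm.heckeMatrix q 0 := by
  have hq0 : q ≠ 0 := NeZero.ne q
  have hq' : (q : ℤ) ≠ 0 := by exact_mod_cast hq0
  obtain ⟨c, hc⟩ := q_dvd_of_mem_Gamma0_mul γ.2
  have hM := conjD_coe N q γ
  have h00 : ((conjD N q γ : ↥(Gamma0 N)) : SL(2, ℤ)) 0 0 = (γ : SL(2, ℤ)) 0 0 := by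
    show (((conjD N q γ : ↥(Gamma0 N)) : SL(2, ℤ)) : Matrix (Fin 2) (Fin 2) ℤ) 0 0 = _
    rw [hM]; rfl
  have h01 : ((conjD N q γ : ↥(Gamma0 N)) : SL(2, ℤ)) 0 1 = q * (γ : SL(2, ℤ)) 0 1 := by
    show (((conjD N q γ : ↥(Gamma0 N)) : SL(2, ℤ)) : Matrix (Fin 2) (Fin 2) ℤ) 0 1 = _
    rw [hM]; rfl
  have h10 : (q : ℤ) * ((conjD N q γ : ↥(Gamma0 N)) : SL(2, ℤ)) 1 0 = (γ : SL(2, ℤ)) 1 0 := by
    show (q : ℤ) * (((conjD N q γ : ↥(Gamma0 N)) : SL(2, ℤ)) : Matrix (Fin 2) (Fin 2) ℤ) 1 0 = _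
    rw [hM]
    show (q : ℤ) * (((γ : SL(2, ℤ)) : Matrix (Fin 2) (Fin 2) ℤ) 1 0 / q) = _
    rw [hc, Int.mul_ediv_cancel_left _ hq']
  have h11 : ((conjD N q γ : ↥(Gamma0 N)) : SL(2, ℤ)) 1 1 = (γ : SL(2, ℤ)) 1 1 := by
    show (((conjD N q γ : ↥(Gamma0 N)) : SL(2, ℤ)) : Matrix (Fin 2) (Fin 2) ℤ) 1 1 = _
    rw [hM]; rfl
  have h10' := congrArg (Int.cast : ℤ → ℝ) h10
  push_cast at h10'
  ext i k
  fin_cases i <;> fin_cases k <;>
    simp [hq0, Matrix.mul_apply, Fin.sum_univ_two, h00, h01, h11]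
  all_goals first
    | exact h10'
    | ring

theorem degData_beta (hq : q.Prime) :
    DegData N q (heckeBetaBar ℂ N q) (conjD N q) (ModularForm.heckeMatrix q 0) where
  det_pos := ModularForm.det_heckeMatrix_pos q 0
  conj := heckeMatrix_mul_conjD N q
  nice := fun F hFd hFg g => by
    haveI : Fact q.Prime := ⟨hq⟩
    have h := normAn_conjFun_translate_mem_nice (p := q) F hFd hFg g
      ((0 : ZMod q) : OnePoint (ZMod q))
    have e : (fun z : ℍ => conjFun q F ((0 : ZMod q) : OnePoint (ZMod q)) (g • z))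
        = fun z : ℍ => F (ModularForm.heckeMatrix q 0 • (g • z)) := by
      funext z
      rw [conjFun_coe, ZMod.val_zero]
    rwa [e] at h
  rep := fun g Gf hG => by
    refine ⟨Gf ∘ scaleH q, ?_, fun z => ?_⟩
    · unfold Fermat.Agent.H23.EsA.Rep
      rw [coe_heckeBetaBar]
      exact LaurentRel.scale hG q
    · rw [Function.comp_apply, scaleH_heckeMatrix_smul]

theorem conjD_injective' : Function.Injective (conjD N q) := by
  intro γ γ' h
  have hq0 : q ≠ 0 := NeZero.ne q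
  have hq' : (q : ℤ) ≠ 0 := by exact_mod_cast hq0
  obtain ⟨c, hc⟩ := q_dvd_of_mem_Gamma0_mul γ.2
  obtain ⟨c', hc'⟩ := q_dvd_of_mem_Gamma0_mul γ'.2
  have hM : conjDMat q ((γ : SL(2, ℤ)) : Matrix (Fin 2) (Fin 2) ℤ)
      = conjDMat q ((γ' : SL(2, ℤ)) : Matrix (Fin 2) (Fin 2) ℤ) := by
    rw [← conjD_coe, ← conjD_coe, h]
  apply Subtype.ext
  apply Subtype.ext
  have e00 := congrFun (congrFun hM 0) 0
  have e01 := congrFun (congrFun hM 0) 1
  have e10 := congrFun (congrFun hM 1) 0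
  have e11 := congrFun (congrFun hM 1) 1
  simp only [conjDMat, Matrix.of_apply, Matrix.cons_val', Matrix.cons_val_zero,
    Matrix.cons_val_one, Matrix.cons_val_fin_one] at e00 e01 e10 e11
  rw [hc, hc', Int.mul_ediv_cancel_left _ hq', Int.mul_ediv_cancel_left _ hq'] at e10
  ext i k
  fin_cases i <;> fin_cases k
  · exact e00
  · exact mul_left_cancel₀ hq' e01
  · show ((γ : SL(2, ℤ)) : Matrix (Fin 2) (Fin 2) ℤ) 1 0
      = ((γ' : SL(2, ℤ)) : Matrix (Fin 2) (Fin 2) ℤ) 1 0
    rw [hc, hc', e10]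
  · exact e11

end Beta

/-! ### The datum of the push-forward -/

section Assembly

variable {N q : ℕ} [NeZero N] [NeZero q] {φ : ↥(FC N) →ₐ[ℂ] ↥(FC (N * q))}
  {j : ↥(Gamma0 (N * q)) →* ↥(Gamma0 N)} {d : GL (Fin 2) ℝ}

theorem mdiff_cpProd (hD : DegData N q φ j d) [j.range.FiniteIndex] {G : ℍ → ℂ}
    (hG : MDiff G) : MDiff (cpProd N q j d G) := by
  classical
  letI := j.range.fintypeQuotientOfFiniteIndex
  have h0 : MDiff (fun w : ℍ => G (d • w)) :=
    hG.comp (UpperHalfPlane.mdifferentiable_smul hD.det_pos)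
  have h1 : ∀ c : ↥(Gamma0 N) ⧸ j.range,
      MDiff (fun z : ℍ => cpTw j.range (fun w : ℍ => G (d • w)) c z) := fun c =>
    mdiff_comp_smul_SL h0 (((Quotient.out c)⁻¹ : ↥(Gamma0 N)) : SL(2, ℤ))
  have h2 : ∀ s : Finset (↥(Gamma0 N) ⧸ j.range),
      MDiff (fun z : ℍ => ∏ c ∈ s, cpTw j.range (fun w : ℍ => G (d • w)) c z) := by
    intro s
    induction s using Finset.induction_on with
    | empty =>
      simp only [Finset.prod_empty]
      exact mdifferentiable_const
    | insert a s ha ih =>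
      simp only [Finset.prod_insert ha]
      exact (h1 a).mul ih
  exact h2 Finset.univ

theorem cpProd_pow [j.range.FiniteIndex] (G : ℍ → ℂ) (m : ℕ) :
    cpProd N q j d G ^ m = cpProd N q j d (G ^ m) := by
  funext z
  simp only [cpProd, cpTw, Pi.pow_apply, Finset.prod_pow]

/-- The evaluation `Multiplicative (Additive ℂˣ) → ℂ`. -/
def nuC : Multiplicative (Additive ℂˣ) →* ℂ :=
  (Units.coeHom ℂ).comp (MulEquiv.multiplicativeAdditive ℂˣ).toMonoidHom

theorem hasCharacter_cpProd (hD : DegData N q φ j d) (hj : Function.Injective j)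
    [hfi : j.range.FiniteIndex] {G : ℍ → ℂ} {χ : ↥(Gamma0 (N * q)) →* ℂˣ}
    (hG : HasCharacter (N * q) G χ) :
    HasCharacter N (cpProd N q j d G) (pushChar j χ) := by
  classical
  intro γ z
  have hΦ : ∀ (h : j.range) (w : ℍ), (fun w : ℍ => G (d • w)) ((h : ↥(Gamma0 N)) • w)
      = nuC (onRange j hj (Additive ℂˣ) (MonoidHom.toAdditive χ) h)
        * (fun w : ℍ => G (d • w)) w := by
    rintro ⟨h, γ₀, rfl⟩ w
    have e1 : (MonoidHom.ofInjective hj).symm ⟨j γ₀, γ₀, rfl⟩ = γ₀ :=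
      (MonoidHom.ofInjective hj).symm_apply_apply γ₀
    have e2 : nuC (onRange j hj (Additive ℂˣ) (MonoidHom.toAdditive χ) ⟨j γ₀, γ₀, rfl⟩)
        = (χ γ₀ : ℂ) := by
      show ((χ ((MonoidHom.ofInjective hj).symm ⟨j γ₀, γ₀, rfl⟩) : ℂˣ) : ℂ) = _
      rw [e1]
    rw [e2]
    exact hD.char_range hG γ₀ w
  have key := prod_cpTw_smul_of_char (G := ↥(Gamma0 N)) (H := j.range) (Z := ℍ) nuC
    (onRange j hj (Additive ℂˣ) (MonoidHom.toAdditive χ)) (Φ := fun w : ℍ => G (d • w)) hΦ γ z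
  have e3 : ((pushChar j χ γ : ℂˣ) : ℂ)
      = nuC (MonoidHom.transfer (onRange j hj (Additive ℂˣ) (MonoidHom.toAdditive χ)) γ) := by
    unfold pushChar pushHom
    rw [dif_pos ⟨hj, hfi⟩]
    rfl
  rw [e3]
  exact key

end Assembly

/-! ### The theorem -/

section Final

/-- If `div f = m D` then `div (Norm_φ f) = m φ_* D`. -/
theorem kn_ord_norm_push {K F F' : Type*} [Field K] [Field F] [Field F'] [Algebra K F]
    [Algebra K F'] (φ : F →ₐ[K] F') (hφ : φ.toRingHom.IsIntegral)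
    (hfin : FiniteAlong K φ) (hN : NormFormulaAlong K φ hfin)
    (m : ℤ) (D : Divisor K F') (f : F') (hf0 : f ≠ 0)
    (hf : ∀ w : Place K F', w.ord f = m * D w) (v : Place K F) :
    v.ord (letI := algebraAlong φ; Algebra.norm F f)
      = m * Divisor.pushforwardAlong φ hφ D v := by
  letI := algebraAlong φ
  haveI := isScalarTower_along φ
  haveI := isIntegral_along φ hφ
  haveI : Module.Finite F F' := hfin
  have hN' : Divisor.PushforwardNormFormula K F F' := hN
  have h1 := hN' f hf0 (m • D) (fun w => by rw [Finsupp.smul_apply, smul_eq_mul, hf]) v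
  have h2 : Divisor.pushforward F (m • D) v = m * Divisor.pushforwardAlong φ hφ D v := by
    rw [map_zsmul, Finsupp.smul_apply, smul_eq_mul]
    rfl
  rw [← h2, h1]

variable {N q : ℕ} [NeZero N] [NeZero q] {φ : ↥(FC N) →ₐ[ℂ] ↥(FC (N * q))}
  {j : ↥(Gamma0 (N * q)) →* ↥(Gamma0 N)} {d : GL (Fin 2) ℝ}

/-- The torsion–character relation intertwines the push-forward of divisor classes along `φ`
with the transfer of characters along `j`. -/
theorem torsionCharRel_push (hD : DegData N q φ j d) (hj : Function.Injective j)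
    (hfin : FiniteAlong ℂ φ) (hdeg : finrankAlong ℂ φ = j.range.index)
    (m : ℕ) (hm : 0 < m) (x : Pic0 ℂ ↥(FC (N * q))) (χ : ↥(Gamma0 (N * q)) →* ℂˣ)
    (hx : TorsionCharRel (N * q) m x χ) :
    TorsionCharRel N m
      (pic0PushforwardAlong φ (Fermat.Agent.H49.isIntegral_of_finiteAlong _ hfin) hfin
        (Fermat.Agent.H49.normFormulaAlong_of_finite _ hfin) x)
      (pushChar j χ) := by
  have hpos : 0 < finrankAlong ℂ φ := by
    unfold finrankAlong
    letI alg : Algebra ↥(FC N) ↥(FC (N * q)) := algebraAlong φ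
    letI mod : Module ↥(FC N) ↥(FC (N * q)) := alg.toModule
    haveI : Module.Finite ↥(FC N) ↥(FC (N * q)) := hfin
    exact Module.finrank_pos
  haveI : j.range.FiniteIndex := ⟨by rw [← hdeg]; exact hpos.ne'⟩
  obtain ⟨D, f, G, hDx, hf0, hord, hG, hrep, hchar⟩ := hx
  refine ⟨degZeroPushforwardAlong φ (Fermat.Agent.H49.isIntegral_of_finiteAlong _ hfin) D,
    (letI := algebraAlong φ; Algebra.norm ↥(FC N) f), cpProd N q j d G, ?_, ?_, ?_, ?_, ?_, ?_⟩
  · rw [← hDx]
    rfl
  · letI alg : Algebra ↥(FC N) ↥(FC (N * q)) := algebraAlong φ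
    letI mod : Module ↥(FC N) ↥(FC (N * q)) := alg.toModule
    haveI : Module.Finite ↥(FC N) ↥(FC (N * q)) := hfin
    exact Algebra.norm_ne_zero_iff.mpr hf0
  · intro v
    exact kn_ord_norm_push φ (Fermat.Agent.H49.isIntegral_of_finiteAlong _ hfin) hfin
      (Fermat.Agent.H49.normFormulaAlong_of_finite _ hfin) (m : ℤ)
      (D : Divisor ℂ ↥(FC (N * q))) f hf0 hord v
  · exact mdiff_cpProd hD hG
  · rw [cpProd_pow]
    exact normRepGen hD hdeg (Fermat.Agent.H13.esaCoreC N) (Fermat.Agent.H13.esaRsubRep N)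
      (Fermat.Agent.H32.holModular N (Fermat.Agent.H13.esaCoreC N)
        (Fermat.Agent.H13.esaRsubRep N) (Fermat.Agent.H69.DegC.degreeC N))
      (Fermat.Agent.H77.esg_invariantGrowthStatement (N * q)
        (Fermat.Agent.H13.esaCoreC (N * q)) (Fermat.Agent.H13.esaRsubRep (N * q)))
      f (G ^ m) (hG.pow m) hrep
  · exact hasCharacter_cpProd hD hj hchar

/-- **(J4b) PUSH-CHAR** from degree = index. -/
theorem pushChar_of_degIndex (hDI : DegIndexStatement) : PushCharStatement := by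
  intro N q _ _ hq m hm x χ hx
  obtain ⟨hα, hβ⟩ := hDI N q hq
  exact ⟨torsionCharRel_push (degData_alpha N q) (incl_injective N q)
      (Fermat.Agent.H54.degeneracyFinite ℂ N q hq).1 hα m hm x χ hx,
    torsionCharRel_push (degData_beta N q hq) (conjD_injective' N q)
      (Fermat.Agent.H54.degeneracyFinite ℂ N q hq).2 hβ m hm x χ hx⟩

end Final

end Fermat.Agent.H26.KumNew

end
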